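import Fermat.Agent.S19.Defs

set_option autoImplicit false

noncomputable section

namespace Fermat.Agent.S19.H499

open Fermat.Agent.S19 Polynomial

/-- If all Galois conjugates of `x ∈ Q̄` lie in a subring `A` with `A ∩ ℚ ⊆ Z_(ℓ)`, then `x` is
integral over `Z_(ℓ)`. -/
theorem isIntegral_of_forall_conj_mem {ℓ : ℕ} (A : Subring Qb)
    (hA : ∀ q : ℚ, algebraMap ℚ Qb q ∈ A → q ∈ Rl ℓ)
    (x : Qb) (hx : ∀ σ : GalQ, σ x ∈ A) : IsIntegral (Rl ℓ) x := by
  have : Algebra.IsAlgebraic ℚ Qb := AlgebraicClosure.isAlgebraic ℚ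
  have : IsAlgClosure ℚ Qb := ⟨inferInstance, inferInstance⟩
  have : Normal ℚ Qb := IsAlgClosure.normal ℚ Qb
  have hxalg : IsIntegral ℚ x := Algebra.IsIntegral.isIntegral x
  set p := minpoly ℚ x with hp
  have hmonic : p.Monic := minpoly.monic hxalg
  have hsplit : (p.map (algebraMap ℚ Qb)).Splits := IsAlgClosed.splits _
  have hprod := hsplit.eq_prod_roots_of_monic (hmonic.map _)
  -- every root is a conjugate of x
  have hroot : ∀ r ∈ (p.map (algebraMap ℚ Qb)).roots, r ∈ A := by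
    intro r hr
    have hr0 : aeval r p = 0 := by
      have := (mem_roots'.mp hr).2
      rwa [IsRoot.def, eval_map_algebraMap] at this
    have hconj : IsConjRoot ℚ x r := by
      rw [isConjRoot_def]
      exact minpoly.eq_of_irreducible_of_monic (minpoly.irreducible hxalg) hr0 hmonic
    obtain ⟨σ, hσ⟩ := hconj.exists_algEquiv
    have hr' : r = σ.symm x := by rw [← hσ, AlgEquiv.symm_apply_apply]
    rw [hr']
    exact hx σ.symm
  -- coefficients of p lie in A
  have hlift : p.map (algebraMap ℚ Qb) ∈ lifts A.subtype := by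
    rw [hprod]
    refine Subsemiring.multiset_prod_mem _ _ ?_
    intro q hq
    obtain ⟨r, hr, rfl⟩ := Multiset.mem_map.mp hq
    rw [mem_lifts]
    refine ⟨X - C ⟨r, hroot r hr⟩, ?_⟩
    simp
  have hcoeff : ∀ n, p.coeff n ∈ Rl ℓ := by
    intro n
    apply hA
    have := (lifts_iff_coeff_lifts _).mp hlift n
    obtain ⟨a, ha⟩ := this
    rw [coeff_map] at ha
    rw [← ha]
    exact a.2
  have hlift2 : p ∈ lifts (algebraMap (Rl ℓ) ℚ) := by
    rw [lifts_iff_coeff_lifts]
    intro n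
    exact ⟨⟨p.coeff n, hcoeff n⟩, rfl⟩
  obtain ⟨q, hq, -, hqm⟩ := lifts_and_degree_eq_and_monic hlift2 hmonic
  refine ⟨q, hqm, ?_⟩
  have h0 : aeval x p = 0 := minpoly.aeval ℚ x
  rw [← hq] at h0
  rw [← h0, aeval_def, eval₂_map]
  congr 1

end Fermat.Agent.S19.H499
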