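import Fermat.Agent.S19.Defs

/-!
# Cell A3 (S19), route VAL (helper499): integral matrix representations

`IntRep ℓ M act` : a faithful, Galois-equivariant representation `ρ : M → Mat_ι(Q̄)` of the
additive group `M` by matrices whose entries are integral over `Z_(ℓ)`.

* `IntRep.toOrderDatum` : an `IntRep` gives the frozen `OrderDatum` of `Defs.lean`
  (generators = matrix entries, `add_mem` = the matrix product formula).

* `IntRep.ofLattice` : the abstract form of the valuation argument.  Given a `Q̄`-vector space
  `E` (in the application: the function field of `Sym^g X₀(N)` over `Q̄`), an additive action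
  `τ` of `M` on `E` by `Q̄`-linear maps, Galois-semilinear maps `γ σ` with
  `γ σ ∘ τ m = τ (act σ m) ∘ γ σ`, a set `O ⊆ E` ("valuation ring") stable under every `τ m`,
  and finitely many vectors `lam i`, fixed by every `γ σ`, spanning a `τ`-stable subspace, such that
  `∑ bᵢ lamᵢ ∈ O ↔ ∀ i, bᵢ ∈ A` (orthogonality; `A` a subring of `Q̄` with `A ∩ ℚ ⊆ Z_(ℓ)`),
  the matrices of the `τ m` in the basis `lam` form an `IntRep`, provided `τ` is faithful on the
  span.
-/

set_option autoImplicit false

noncomputable section

namespace Fermat.Agent.S19.H499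

open Fermat.Agent.S19

/-- A faithful Galois-equivariant representation of `M` by `ℓ`-integral matrices. -/
structure IntRep (ℓ : ℕ) (M : Type) [AddCommGroup M] (act : GalQ → M → M) where
  /-- index type of the matrices -/
  ι : Type
  /-- the index type is finite -/
  fin : Fintype ι
  /-- the representation -/
  ρ : M → Matrix ι ι Qb
  /-- multiplicativity -/
  map_add : ∀ m m', ρ (m + m') = ρ m * ρ m'
  /-- faithfulness -/
  inj : Function.Injective ρ
  /-- Galois equivariance, entrywise -/
  equivariant : ∀ (σ : GalQ) (m : M) (i j : ι), ρ (act σ m) i j = σ (ρ m i j)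
  /-- entries are integral over `Z_(ℓ)` -/
  integral : ∀ (m : M) (i j : ι), IsIntegral (Rl ℓ) (ρ m i j)

namespace IntRep

variable {ℓ : ℕ} {M : Type} [AddCommGroup M] {act : GalQ → M → M}

/-- The matrix-entry functions of an integral representation. -/
def entry (D : IntRep ℓ M act) (i j : D.ι) : M → Qb := fun m => D.ρ m i j

/-- The action of an integral representation is automatically additive (faithfulness +
equivariance + multiplicativity). -/
theorem act_add (D : IntRep ℓ M act) (σ : GalQ) (a b : M) :
    act σ (a + b) = act σ a + act σ b := by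
  let _ := D.fin
  apply D.inj
  ext i j
  rw [D.equivariant, D.map_add, D.map_add, Matrix.mul_apply, Matrix.mul_apply, map_sum]
  refine Finset.sum_congr rfl fun k _ => ?_
  rw [map_mul, D.equivariant, D.equivariant]

/-- An integral representation gives an order datum: the generators are the matrix entries. -/
def toOrderDatum (D : IntRep ℓ M act) : OrderDatum ℓ M act where
  act_add := D.act_add
  gens := {f | ∃ i j, f = D.entry i j}
  equivariant := by
    rintro f ⟨i, j, rfl⟩ σ m
    exact D.equivariant σ m i j
  integral := by
    rintro f ⟨i, j, rfl⟩ m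
    exact D.integral m i j
  separates := by
    intro m m' h
    apply D.inj
    ext i j
    exact h (D.entry i j) ⟨i, j, rfl⟩
  add_mem := by
    let _ := D.fin
    rintro f ⟨i, j, rfl⟩
    have key : (fun p : M × M => D.entry i j (p.1 + p.2)) =
        ∑ k : D.ι, (fun p : M × M => D.entry i k p.1) * (fun p : M × M => D.entry k j p.2) := by
      funext p
      simp only [entry, Finset.sum_apply, Pi.mul_apply]
      rw [D.map_add, Matrix.mul_apply]
    rw [key]
    refine Subalgebra.sum_mem _ fun k _ => Subalgebra.mul_mem _ ?_ ?_
    · exact Algebra.subset_adjoin (Or.inl ⟨D.entry i k, ⟨i, k, rfl⟩, rfl⟩)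
    · exact Algebra.subset_adjoin (Or.inr ⟨D.entry k j, ⟨k, j, rfl⟩, rfl⟩)

theorem nonempty_orderDatum (D : IntRep ℓ M act) : Nonempty (OrderDatum ℓ M act) :=
  ⟨D.toOrderDatum⟩

end IntRep

/-- An integral representation on a finite module gives a Hopf model, given the ORD block. -/
theorem hopfModel_of_intRep (hord : OrdStatement) {ℓ : ℕ} [Fact ℓ.Prime] {M : Type}
    [AddCommGroup M] [Finite M] {act : GalQ → M → M} (D : IntRep ℓ M act) :
    HopfModel ℓ M act :=
  hord ℓ M act D.nonempty_orderDatum

end Fermat.Agent.S19.H499

end
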