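import Fermat.Agent.S19.H499.IntRep
import Fermat.Agent.S19.H499.Integral

set_option autoImplicit false

noncomputable section

namespace Fermat.Agent.S19.H499

open Fermat.Agent.S19

section

variable {ι : Type} [Fintype ι] {E : Type*} [AddCommGroup E] [Module Qb E]

theorem eq_of_sum_smul_eq {lam : ι → E} (hlin : LinearIndependent Qb lam) {a b : ι → Qb}
    (h : ∑ i, a i • lam i = ∑ i, b i • lam i) : a = b := by
  have h0 : ∑ i, (a i - b i) • lam i = 0 := by
    simp only [sub_smul, Finset.sum_sub_distrib, h, sub_self]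
  have := Fintype.linearIndependent_iff.mp hlin (fun i => a i - b i) h0
  funext i
  exact sub_eq_zero.mp (this i)

end

/-- **Abstract valuation argument.**  See the file header of `IntRep.lean`. -/
theorem exists_intRep_of_lattice
    {ℓ : ℕ} {M : Type} [AddCommGroup M] {act : GalQ → M → M}
    {E : Type*} [AddCommGroup E] [Module Qb E]
    (τ : M → E →ₗ[Qb] E) (hτ_add : ∀ m m' x, τ (m + m') x = τ m (τ m' x))
    (γ : GalQ → E → E) (hγ_add : ∀ σ x y, γ σ (x + y) = γ σ x + γ σ y)
    (hγ_zero : ∀ σ, γ σ 0 = 0)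
    (hγ_smul : ∀ σ (c : Qb) x, γ σ (c • x) = σ c • γ σ x)
    (hγτ : ∀ σ m x, γ σ (τ m x) = τ (act σ m) (γ σ x))
    (A : Subring Qb) (hA : ∀ q : ℚ, algebraMap ℚ Qb q ∈ A → q ∈ Rl ℓ)
    (O : Set E) (hO : ∀ m x, x ∈ O → τ m x ∈ O)
    {ι : Type} [Fintype ι] (lam : ι → E) (hlin : LinearIndependent Qb lam)
    (hfix : ∀ σ i, γ σ (lam i) = lam i)
    (hstab : ∀ m i, τ m (lam i) ∈ Submodule.span Qb (Set.range lam))
    (horth : ∀ b : ι → Qb, (∑ i, b i • lam i) ∈ O ↔ ∀ i, b i ∈ A)
    (hfaith : ∀ m m', (∀ i, τ m (lam i) = τ m' (lam i)) → m = m') :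
    Nonempty (IntRep ℓ M act) := by
  classical
  -- coefficients
  have hex : ∀ m j, ∃ c : ι → Qb, τ m (lam j) = ∑ i, c i • lam i := by
    intro m j
    obtain ⟨c, hc⟩ := (Submodule.mem_span_range_iff_exists_fun Qb).mp (hstab m j)
    exact ⟨c, hc.symm⟩
  choose coef hcoef using hex
  have hγsum : ∀ σ (c : ι → Qb), γ σ (∑ i, c i • lam i) = ∑ i, σ (c i) • lam i := by
    intro σ c
    have : ∀ s : Finset ι, γ σ (∑ i ∈ s, c i • lam i) = ∑ i ∈ s, σ (c i) • lam i := by
      intro s
      induction s using Finset.induction_on with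
      | empty => simp [hγ_zero]
      | insert a s ha ih =>
        rw [Finset.sum_insert ha, Finset.sum_insert ha, hγ_add, ih, hγ_smul, hfix]
    exact this Finset.univ
  have hlam_mem : ∀ j, lam j ∈ O := by
    intro j
    have h1 : (∑ i, (Pi.single j (1 : Qb) : ι → Qb) i • lam i) = lam j := by
      rw [Finset.sum_eq_single j]
      · simp
      · intro i _ hij
        simp [Pi.single_eq_of_ne hij]
      · intro h
        exact absurd (Finset.mem_univ j) h
    rw [← h1]
    refine (horth _).mpr fun i => ?_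
    by_cases hij : i = j
    · subst hij
      simp [A.one_mem]
    · simp [Pi.single_eq_of_ne hij, A.zero_mem]
  have hcoef_mem : ∀ m j i, coef m j i ∈ A := by
    intro m j
    have := hO m _ (hlam_mem j)
    rw [hcoef m j] at this
    exact (horth _).mp this
  have hequiv : ∀ (σ : GalQ) m j i, coef (act σ m) j i = σ (coef m j i) := by
    intro σ m j
    have h1 : γ σ (τ m (lam j)) = ∑ i, σ (coef m j i) • lam i := by
      rw [hcoef m j, hγsum]
    have h2 : γ σ (τ m (lam j)) = ∑ i, coef (act σ m) j i • lam i := by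
      rw [hγτ, hfix, hcoef]
    have := eq_of_sum_smul_eq hlin (h2.symm.trans h1)
    exact fun i => congrFun this i
  refine ⟨{
    ι := ι
    fin := inferInstance
    ρ := fun m => Matrix.of fun i j => coef m j i
    map_add := ?_
    inj := ?_
    equivariant := ?_
    integral := ?_ }⟩
  · intro m m'
    ext i j
    rw [Matrix.mul_apply]
    simp only [Matrix.of_apply]
    have h1 : τ (m + m') (lam j) = ∑ i, (∑ k, coef m k i * coef m' j k) • lam i := by
      rw [hτ_add, hcoef m' j, map_sum]
      simp only [map_smul, hcoef m, Finset.smul_sum, smul_smul]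
      rw [Finset.sum_comm]
      refine Finset.sum_congr rfl fun i _ => ?_
      rw [Finset.sum_smul]
      refine Finset.sum_congr rfl fun k _ => ?_
      rw [mul_comm]
    have := eq_of_sum_smul_eq hlin ((hcoef (m + m') j).symm.trans h1)
    exact congrFun this i
  · intro m m' h
    apply hfaith
    intro j
    rw [hcoef m j, hcoef m' j]
    refine Finset.sum_congr rfl fun i _ => ?_
    have := congrFun (congrFun h i) j
    simp only [Matrix.of_apply] at this
    rw [this]
  · intro σ m i j
    simp only [Matrix.of_apply]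
    exact hequiv σ m j i
  · intro m i j
    simp only [Matrix.of_apply]
    refine isIntegral_of_forall_conj_mem A hA _ fun σ => ?_
    rw [← hequiv σ m j i]
    exact hcoef_mem _ _ _

end Fermat.Agent.S19.H499

end
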